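/-
T4-G (helper3): **statement-level interface for S36**.

* `T4gN9 p N gal hecke` — (N9): for `q² ∥ N`, `q ≠ p`, an eigencharacter `lam` which is new at `q`
  (`T2fNewAt N (N''·q) lam`) has NO non-zero vector in its eigen-lattice fixed by an inertia group
  at `q`.
* `T4gPackage p N` — the Tate module package of `J₀(N)` (as `TePackage`/`T2fPackage`) with (N9).
-/
import Mathlib
import Fermat.Agent.Lib.T2.F.Defs

set_option autoImplicit false
set_option linter.unusedSectionVars false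
set_option linter.unusedVariables false
set_option linter.style.haveILetI false

open scoped TensorProduct
open IsLocalRing Polynomial Fermat.Agent.T1 ModularCurve CongruenceSubgroup Fermat.Agent.S24Lib
  Fermat.Agent.T2

namespace Fermat.Agent.T4

local notation "Kbar" => AlgebraicClosure ℚ
local notation "GQ" => (AlgebraicClosure ℚ ≃ₐ[ℚ] AlgebraicClosure ℚ)

/-- **(N9)**: for `q² ∥ N`, `q ≠ p`, the eigen-lattice of an eigencharacter `lam` which is new at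
`q` contains no non-zero vector fixed by an inertia group at `q` -/
def T4gN9 (p : ℕ) [Fact p.Prime] (N : ℕ) [NeZero N] {T : Type} [AddCommGroup T] [Module ℤ_[p] T]
    (gal : GQ →* Module.End ℤ_[p] T)
    (hecke : CuspForm.heckeAlgebra N 2 (∅ : Set ℕ) →+* Module.End ℤ_[p] T) : Prop :=
  ∀ (q : ℕ), q.Prime → q ≠ p → ∀ (N'' : ℕ) [NeZero N''] [NeZero (N'' * q)],
    N = N'' * q * q → ¬ q ∣ N'' →
    ∀ (𝒪 : Type) [CommRing 𝒪] [IsDomain 𝒪] [IsDiscreteValuationRing 𝒪] [CharZero 𝒪]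
      [Algebra ℤ_[p] 𝒪] (lam : CuspForm.heckeAlgebra N 2 (∅ : Set ℕ) →+* 𝒪),
      T2fNewAt N (N'' * q) lam →
      ∀ A : ValuationSubring Kbar, A.LiesOverPrime q →
        ∀ v ∈ teEigen hecke lam,
          (∀ σ ∈ A.inertiaSubgroupIn ℚ, (gal σ).baseChange 𝒪 v = v) → v = 0

/-- the Tate module package of `J₀(N)` with the additional property (N9) -/
def T4gPackage (p : ℕ) [Fact p.Prime] (N : ℕ) [NeZero N] : Prop :=
  ∃ (T : Type) (_ : AddCommGroup T) (_ : Module ℤ_[p] T) (_ : Module.Free ℤ_[p] T)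
    (_ : Module.Finite ℤ_[p] T) (gal : GQ →* Module.End ℤ_[p] T)
    (hecke : CuspForm.heckeAlgebra N 2 (∅ : Set ℕ) →+* Module.End ℤ_[p] T),
    (∀ σ t, gal σ * hecke t = hecke t * gal σ) ∧
    (∀ n : ℕ, ∃ L : IntermediateField ℚ Kbar, FiniteDimensional ℚ L ∧
      ∀ σ : GQ, (∀ x ∈ L, σ x = x) → ∀ v : T, ∃ w : T, gal σ v - v = (p : ℤ_[p]) ^ n • w) ∧
    (∀ q : ℕ, q.Prime → ¬ q ∣ N → q ≠ p → ∀ P : ValuationSubring Kbar,
      P.LiesOverPrime q → ∀ σ ∈ P.inertiaSubgroupIn ℚ, gal σ = 1) ∧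
    (∀ (l : ℕ) (hl : l.Prime) (hlN : ¬ l ∣ N), l ≠ p → ∀ A : ValuationSubring Kbar,
      A.LiesOverPrime l → ∀ σ : GQ, A.IsFrobeniusAt σ l →
        gal σ * gal σ - hecke (CuspForm.heckeAlgebra.T hl hlN (Set.notMem_empty l)) * gal σ +
          (l : ℤ_[p]) • (1 : Module.End ℤ_[p] T) = 0) ∧
    T4gN9 p N gal hecke ∧
    (∀ (𝒪 : Type) [CommRing 𝒪] [IsDomain 𝒪] [IsDiscreteValuationRing 𝒪] [CharZero 𝒪]
      [Algebra ℤ_[p] 𝒪] (lam : CuspForm.heckeAlgebra N 2 (∅ : Set ℕ) →+* 𝒪),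
      Module.finrank 𝒪 ↥(teEigen hecke lam) = 2 ∧
      ∃ c : GQ, ∃ v ∈ teEigen hecke lam, ∀ z : 𝒪, (gal c).baseChange 𝒪 v ≠ z • v)

end Fermat.Agent.T4
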