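/-
T4-G (helper3): **Kolchin's theorem in rank two over a domain** (Mathlib only).

`t4g_kolchin`: a multiplicatively closed set `G` of endomorphisms of a free module `V` of rank two
over a domain, all with characteristic polynomial `(X - 1)²`, has a common non-zero fixed vector.
Proof: for `g₀ ≠ 1` in `G` and every `h ∈ G`, `(h - 1)(g₀ - 1) = 0`: the square of every entry of the
product is a multiple of `tr(h g₀) - 2 = 0`.  So every vector `(g₀ - 1) u ≠ 0` is fixed by `G`.
-/
import Mathlib

set_option autoImplicit false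
set_option linter.unusedSectionVars false
set_option linter.unusedVariables false
set_option linter.style.haveILetI false
set_option linter.unusedSimpArgs false

open Polynomial

namespace Fermat.Agent.T4

variable {R : Type*} [CommRing R] [IsDomain R]

/-- trace and determinant of a `2 × 2` matrix with characteristic polynomial `(X - 1)²` -/
theorem t4g_trace_det_of_charpoly (M : Matrix (Fin 2) (Fin 2) R)
    (h : M.charpoly = (X - 1) ^ 2) : M.trace = 2 ∧ M.det = 1 := by
  rw [Matrix.charpoly_fin_two] at h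
  constructor
  · have h2 := congrArg (fun P : R[X] => P.coeff 1) h
    have e : ((X - 1 : R[X]) ^ 2) = X ^ 2 - C (2 : R) * X + C (1 : R) := by
      rw [map_ofNat, map_one]; ring
    rw [e] at h2
    simp only [coeff_add, coeff_sub, coeff_X_pow, coeff_C_mul, coeff_X_one, coeff_C] at h2
    simpa using h2
  · have h2 := congrArg (fun P : R[X] => P.coeff 0) h
    have e : ((X - 1 : R[X]) ^ 2) = X ^ 2 - C (2 : R) * X + C (1 : R) := by
      rw [map_ofNat, map_one]; ring
    rw [e] at h2
    simp only [coeff_add, coeff_sub, coeff_X_pow, coeff_C_mul, coeff_X_zero, coeff_C] at h2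
    simpa using h2

/-- **the matrix core**: two unipotent `2 × 2` matrices whose product has trace `2` satisfy
`(H - 1)(G - 1) = 0` -/
theorem t4g_unip_mul (H G : Matrix (Fin 2) (Fin 2) R)
    (hH : H.trace = 2 ∧ H.det = 1) (hG : G.trace = 2 ∧ G.det = 1) (hHG : (H * G).trace = 2) :
    (H - 1) * (G - 1) = 0 := by
  obtain ⟨hH1, hH2⟩ := hH
  obtain ⟨hG1, hG2⟩ := hG
  rw [Matrix.trace_fin_two] at hH1 hG1 hHG
  rw [Matrix.det_fin_two] at hH2 hG2
  simp only [Matrix.mul_apply, Fin.sum_univ_two] at hHG
  set a := H 0 0 with ha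
  set b := H 0 1 with hb
  set c := H 1 0 with hc
  set d := H 1 1 with hd
  set x := G 0 0 with hx
  set y := G 0 1 with hy
  set z := G 1 0 with hz
  set w := G 1 1 with hw
  have hd' : d = 2 - a := by linear_combination hH1
  have hw' : w = 2 - x := by linear_combination hG1
  -- `(a-1)² + b c = 0`, `(x-1)² + y z = 0`, `2 (a-1)(x-1) + b z + c y = 0`
  have e1 : (a - 1) ^ 2 + b * c = 0 := by rw [hd'] at hH2; linear_combination -hH2
  have e2 : (x - 1) ^ 2 + y * z = 0 := by rw [hw'] at hG2; linear_combination -hG2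
  have e3 : 2 * (a - 1) * (x - 1) + b * z + c * y = 0 := by
    rw [hd', hw'] at hHG; linear_combination hHG
  have k00 : ((a - 1) * (x - 1) + b * z) ^ 2 = 0 := by
    linear_combination (x - 1) ^ 2 * e1 + b * z * e3 - b * c * e2
  have k01 : ((a - 1) * y - b * (x - 1)) ^ 2 = 0 := by
    linear_combination y ^ 2 * e1 - b * y * e3 + b ^ 2 * e2
  have k10 : (c * (x - 1) - (a - 1) * z) ^ 2 = 0 := by
    linear_combination z ^ 2 * e1 - c * z * e3 + c ^ 2 * e2
  have k11 : (c * y + (a - 1) * (x - 1)) ^ 2 = 0 := by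
    linear_combination (x - 1) ^ 2 * e1 + c * y * e3 - b * c * e2
  have k00' := pow_eq_zero_iff (two_ne_zero) |>.mp k00
  have k01' := pow_eq_zero_iff (two_ne_zero) |>.mp k01
  have k10' := pow_eq_zero_iff (two_ne_zero) |>.mp k10
  have k11' := pow_eq_zero_iff (two_ne_zero) |>.mp k11
  ext i j
  fin_cases i <;> fin_cases j
  · simp only [Matrix.mul_apply, Fin.sum_univ_two, Matrix.sub_apply, Matrix.one_apply_eq,
      Matrix.one_apply_ne, Matrix.zero_apply, Fin.zero_eta, Fin.isValue, ne_eq, zero_ne_one,
      one_ne_zero, not_false_eq_true, sub_zero]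
    linear_combination k00'
  · simp only [Matrix.mul_apply, Fin.sum_univ_two, Matrix.sub_apply, Matrix.one_apply_eq,
      Matrix.one_apply_ne, Matrix.zero_apply, Fin.zero_eta, Fin.mk_one, Fin.isValue, ne_eq,
      zero_ne_one, one_ne_zero, not_false_eq_true, sub_zero]
    rw [← hw, hw']
    linear_combination k01'
  · simp only [Matrix.mul_apply, Fin.sum_univ_two, Matrix.sub_apply, Matrix.one_apply_eq,
      Matrix.one_apply_ne, Matrix.zero_apply, Fin.zero_eta, Fin.mk_one, Fin.isValue, ne_eq,
      zero_ne_one, one_ne_zero, not_false_eq_true, sub_zero]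
    rw [← hd, hd']
    linear_combination k10'
  · simp only [Matrix.mul_apply, Fin.sum_univ_two, Matrix.sub_apply, Matrix.one_apply_eq,
      Matrix.one_apply_ne, Matrix.zero_apply, Fin.mk_one, Fin.isValue, ne_eq, zero_ne_one,
      one_ne_zero, not_false_eq_true, sub_zero]
    rw [← hd, ← hw, hd', hw']
    linear_combination k11'

/-- **Kolchin's theorem in rank two** -/
theorem t4g_kolchin {V : Type*} [AddCommGroup V] [Module R V] [Module.Free R V]
    [Module.Finite R V] (hV : Module.finrank R V = 2) (G : Set (Module.End R V))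
    (hmul : ∀ g ∈ G, ∀ h ∈ G, g * h ∈ G)
    (hchar : ∀ g ∈ G, LinearMap.charpoly g = (X - 1) ^ 2) :
    ∃ v : V, v ≠ 0 ∧ ∀ g ∈ G, g v = v := by
  classical
  let b : Module.Basis (Fin 2) R V := Module.finBasisOfFinrankEq R V hV
  have htd : ∀ g ∈ G, (LinearMap.toMatrix b b g).trace = 2 ∧ (LinearMap.toMatrix b b g).det = 1 := by
    intro g hg
    apply t4g_trace_det_of_charpoly
    rw [LinearMap.charpoly_toMatrix]
    exact hchar g hg
  by_cases hall : ∀ g ∈ G, g = 1
  · refine ⟨b 0, b.ne_zero 0, fun g hg => ?_⟩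
    rw [hall g hg, Module.End.one_apply]
  · push Not at hall
    obtain ⟨g₀, hg₀, hne⟩ := hall
    have hN : g₀ - 1 ≠ 0 := sub_ne_zero.mpr hne
    obtain ⟨u, hu⟩ : ∃ u : V, (g₀ - 1) u ≠ 0 := by
      by_contra hcon
      push Not at hcon
      exact hN (LinearMap.ext hcon)
    refine ⟨(g₀ - 1) u, hu, fun h hh => ?_⟩
    have key : (h - 1) * (g₀ - 1) = 0 := by
      apply (LinearMap.toMatrix b b).injective
      rw [LinearMap.toMatrix_mul, map_sub, map_sub, LinearMap.toMatrix_one, map_zero]
      apply t4g_unip_mul _ _ (htd h hh) (htd g₀ hg₀)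
      rw [← LinearMap.toMatrix_mul]
      exact (htd (h * g₀) (hmul h hh g₀ hg₀)).1
    have h1 := congrArg (fun f : Module.End R V => f u) key
    simp only [Module.End.mul_apply, LinearMap.sub_apply, Module.End.one_apply,
      LinearMap.zero_apply] at h1
    exact sub_eq_zero.mp h1

end Fermat.Agent.T4
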