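/-
T4-G (helper3): **statement S36 from the Tate module packages with (N9) and the newness (F2)**.

`t4g_S36_of_package : (∀ p N, T4gPackage p N) → T2fNewform → (statement S36)`: the representation
is `teRep` on the eigen-lattice of the newform (as in S35); if it were unipotent on the inertia groups
at a prime `q ≠ lam` with `q² ∥ M`, Kolchin's theorem would give a non-zero vector of the
eigen-lattice fixed by an inertia group at `q`, contradicting (N9).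
-/
import Mathlib
import Fermat.Agent.Lib.T4.Glue.Defs
import Fermat.Agent.Lib.T4.Glue.Kolchin
import Fermat.Agent.Lib.T2.F.NewLam
import Fermat.Agent.Lib.T1.Asm.S30Skeleton
import Fermat.Agent.Lib.T1.Asm.Res.Extension
import Fermat.Agent.Lib.Helper6.FrobeniusExists
import Fermat.Prelude.Def_GaloisRep_LocalConditions

set_option autoImplicit false
set_option linter.unusedSectionVars false
set_option linter.unusedVariables false
set_option linter.style.haveILetI false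

open scoped TensorProduct
open IsLocalRing Polynomial Fermat.Agent.CFT Fermat.Agent.T1 ModularCurve CongruenceSubgroup
  Fermat.Agent.S24Lib Fermat.Agent.T2

namespace Fermat.Agent.T4

local notation "Kbar" => AlgebraicClosure ℚ
local notation "GQ" => (AlgebraicClosure ℚ ≃ₐ[ℚ] AlgebraicClosure ℚ)

noncomputable section

/-- **abstract assembly of S36**: the representation on the eigen-lattice, with the characteristic
polynomials of the Frobenius elements at the primes `l ∉ S`, is not unipotent on the inertia groups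
at a prime `q` such that no non-zero vector of the eigen-lattice is fixed by an inertia group at
`q` -/
theorem t4g_galoisRep_of_package (p : ℕ) [Fact p.Prime] (N : ℕ) (S : Finset ℕ) (hpS : p ∈ S)
    (hNS : ∀ q : ℕ, q.Prime → q ∣ N → q ∈ S)
    {T : Type} [AddCommGroup T] [Module ℤ_[p] T] [Module.Free ℤ_[p] T] [Module.Finite ℤ_[p] T]
    (gal : GQ →* Module.End ℤ_[p] T)
    {𝕋 : Type} [CommRing 𝕋] (hecke : 𝕋 →+* Module.End ℤ_[p] T)
    (hcomm : ∀ σ t, gal σ * hecke t = hecke t * gal σ)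
    (hcont : ∀ n : ℕ, ∃ L : IntermediateField ℚ Kbar, FiniteDimensional ℚ L ∧
      ∀ σ : GQ, (∀ x ∈ L, σ x = x) → ∀ v : T, ∃ w : T, gal σ v - v = (p : ℤ_[p]) ^ n • w)
    (Tl : ℕ → 𝕋)
    (hES : ∀ l : ℕ, l.Prime → ¬ l ∣ N → l ≠ p → ∀ A : ValuationSubring Kbar,
      A.LiesOverPrime l → ∀ σ : GQ, A.IsFrobeniusAt σ l →
        gal σ * gal σ - hecke (Tl l) * gal σ + (l : ℤ_[p]) • (1 : Module.End ℤ_[p] T) = 0)
    {𝒪 : Type} [CommRing 𝒪] [IsDomain 𝒪] [IsDiscreteValuationRing 𝒪] [CharZero 𝒪]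
    [Algebra ℤ_[p] 𝒪] (hp𝒪 : (p : 𝒪) ∈ maximalIdeal 𝒪) (lam : 𝕋 →+* 𝒪)
    (h2 : Module.finrank 𝒪 ↥(teEigen hecke lam) = 2)
    (hc : ∃ c : GQ, ∃ v ∈ teEigen hecke lam, ∀ z : 𝒪, (gal c).baseChange 𝒪 v ≠ z • v) :
    ∃ ρ : GaloisRepAdic 𝒪,
      (∀ l : ℕ, l.Prime → ¬ l ∣ N → l ∉ S → ∀ A : ValuationSubring Kbar, A.LiesOverPrime l →
        ∀ σ : GQ, A.IsFrobeniusAt σ l →
          LinearMap.charpoly (ρ.ρ σ) = X ^ 2 - C (lam (Tl l)) * X + C (l : 𝒪)) ∧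
      (∀ (q : ℕ) (A : ValuationSubring Kbar), A.LiesOverPrime q →
        (∀ v ∈ teEigen hecke lam,
          (∀ σ ∈ A.inertiaSubgroupIn ℚ, (gal σ).baseChange 𝒪 v = v) → v = 0) →
        ¬ ρ.IsUnipotentOnInertiaAt q) := by
  have hp : p.Prime := Fact.out
  have hp0 : (p : 𝒪) ≠ 0 := Nat.cast_ne_zero.2 hp.ne_zero
  set ρ := teRep gal hecke hcomm hcont hp𝒪 hp0 lam h2 with hρ
  have hlN : ∀ l : ℕ, l.Prime → l ∉ S → ¬ l ∣ N ∧ l ≠ p := fun l hl hlS =>
    ⟨fun h => hlS (hNS l hl h), fun h => hlS (h ▸ hpS)⟩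
  have hq : ∀ l : ℕ, l.Prime → l ∉ S → ∀ A : ValuationSubring Kbar, A.LiesOverPrime l →
      ∀ φ : GQ, A.IsFrobeniusAt φ l →
        ρ.ρ φ * ρ.ρ φ - lam (Tl l) • ρ.ρ φ + (l : 𝒪) • (1 : Module.End 𝒪 ρ.V) = 0 :=
    fun l hl hlS A hA φ hφ =>
      teRep_quadratic gal hecke hcomm hcont hp𝒪 hp0 lam h2 φ (Tl l) l
        (hES l hl (hlN l hl hlS).1 (hlN l hl hlS).2 A hA φ hφ)
  obtain ⟨c, hcv⟩ := hc
  obtain ⟨hcyc, hchar⟩ := te_charpoly_of_quadratic p ρ S hp𝒪 hpS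
    (fun l hl hlS A hA φ hφ => ⟨lam (Tl l), hq l hl hlS A hA φ hφ⟩)
    ⟨c, teRep_not_scalar gal hecke hcomm hcont hp𝒪 hp0 lam h2 c hcv⟩
  refine ⟨ρ, fun l hl _ hlS A hA σ hσ => ?_, fun q A hA hfix huni => ?_⟩
  · exact hchar l hl hlS A hA σ hσ (lam (Tl l)) (hq l hl hlS A hA σ hσ)
  · -- Kolchin
    obtain ⟨v, hv0, hv⟩ := t4g_kolchin (R := 𝒪) (V := ρ.V) ρ.finrank_eq
      (ρ.ρ '' (A.inertiaSubgroupIn ℚ : Set GQ))
      (by
        rintro _ ⟨σ, hσ, rfl⟩ _ ⟨τ, hτ, rfl⟩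
        exact ⟨σ * τ, (A.inertiaSubgroupIn ℚ).mul_mem hσ hτ, map_mul ρ.ρ σ τ⟩)
      (by
        rintro _ ⟨σ, hσ, rfl⟩
        exact huni A hA σ hσ)
    apply hv0
    have hv' : ((show ↥(teEigen hecke lam) from v) : 𝒪 ⊗[ℤ_[p]] T) = 0 := by
      apply hfix _ (show ↥(teEigen hecke lam) from v).2
      intro σ hσ
      have h1 := hv (ρ.ρ σ) ⟨σ, hσ, rfl⟩
      exact congrArg (fun x : ↥(teEigen hecke lam) => (x : 𝒪 ⊗[ℤ_[p]] T)) h1
    exact Subtype.ext hv'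

/-- **statement S36 from the Tate module packages with (N9) and the newness (F2)** -/
theorem t4g_S36_of_package
    (hpkg : ∀ (p : ℕ) [Fact p.Prime] (N : ℕ) [NeZero N], T4gPackage p N) (hnew : T2fNewform)
    {M : ℕ} [NeZero M] {g : CuspForm (CongruenceSubgroup.Gamma0 M) 2} (hg : g.IsNewform)
    (lam : ℕ) [Fact lam.Prime]
    (S : Finset ℕ)
    (O' : Type) [CommRing O'] [IsDomain O'] [IsDiscreteValuationRing O']
    [IsAdicComplete (IsLocalRing.maximalIdeal O') O'] [Finite (IsLocalRing.ResidueField O')]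
    [CharZero O'] (hlamO' : (lam : O') ∈ IsLocalRing.maximalIdeal O')
    (chig : CuspForm.heckeAlgebra M 2 (↑S : Set ℕ) →+* ℂ)
    (hchig : ∀ (ℓ : ℕ) (hℓ : ℓ.Prime) (hℓM : ¬ ℓ ∣ M) (hℓS : ℓ ∉ (↑S : Set ℕ)),
      chig (CuspForm.heckeAlgebra.T hℓ hℓM hℓS) = ModularFormClass.qCoeff g ℓ)
    (iota : chig.range →+* O')
    (hlamS : lam ∈ S) (hMS : ∀ q : ℕ, q.Prime → q ∣ M → q ∈ S) :
    ∃ (O'' : Type) (_ : CommRing O'') (_ : IsDomain O'') (_ : IsDiscreteValuationRing O'')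
      (_ : IsAdicComplete (IsLocalRing.maximalIdeal O'') O'')
      (_ : Finite (IsLocalRing.ResidueField O''))
      (_ : CharZero O'') (_ : Algebra O' O'') (_ : Module.Finite O' O'')
      (_ : IsLocalHom (algebraMap O' O'')),
      Function.Injective (algebraMap O' O'') ∧
      ∃ ρ : GaloisRepAdic O'',
        (∀ (ℓ : ℕ) (hℓ : ℓ.Prime) (hℓM : ¬ ℓ ∣ M) (hℓS : ℓ ∉ (↑S : Set ℕ)),
          ∀ A : ValuationSubring (AlgebraicClosure ℚ), A.LiesOverPrime ℓ →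
            ∀ σ : AlgebraicClosure ℚ ≃ₐ[ℚ] AlgebraicClosure ℚ, A.IsFrobeniusAt σ ℓ →
              LinearMap.charpoly (ρ.ρ σ) =
                X ^ 2 - C (algebraMap O' O'' ((iota.comp chig.rangeRestrict)
                  (CuspForm.heckeAlgebra.T hℓ hℓM hℓS))) * X + C ((ℓ : O''))) ∧
        (∀ q : ℕ, q.Prime → q ≠ lam → M.factorization q = 2 → ¬ ρ.IsUnipotentOnInertiaAt q) := by
  classical
  obtain ⟨O'', i1, i2, i3, i4, i5, i6, i7, i8, i9, hinj, ι', hι'inj, hι'⟩ :=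
    t2fn_exists_lamg hg.1 (↑S : Set ℕ) hMS O' chig hchig iota
  refine ⟨O'', i1, i2, i3, i4, i5, i6, i7, i8, i9, hinj, ?_⟩
  have hp'' : (lam : O'') ∈ maximalIdeal O'' := by
    rw [mem_maximalIdeal, mem_nonunits_iff] at hlamO' ⊢
    intro hu
    apply hlamO'
    have : (lam : O'') = algebraMap O' O'' (lam : O') := (map_natCast _ lam).symm
    rw [this] at hu
    exact isUnit_of_map_unit (algebraMap O' O'') _ hu
  letI : Algebra ℤ_[lam] O'' := tePadicAlgebra lam O'' hp''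
  obtain ⟨T, j1, j2, j3, j4, gal, hecke, hcomm, hcont, hunr, hES, hN9, h56⟩ := hpkg lam M
  set lamg : CuspForm.heckeAlgebra M 2 (∅ : Set ℕ) →+* O'' :=
    ι'.comp (terEigenCharC hg.1 (∅ : Set ℕ)).rangeRestrict with hlamg
  obtain ⟨h2, hc⟩ := h56 O'' lamg
  set Tl : ℕ → CuspForm.heckeAlgebra M 2 (∅ : Set ℕ) := fun l =>
    if h : l.Prime ∧ ¬ l ∣ M then CuspForm.heckeAlgebra.T h.1 h.2 (Set.notMem_empty l) else 0
    with hTl
  have hTl' : ∀ (l : ℕ) (hl : l.Prime) (hlM : ¬ l ∣ M),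
      Tl l = CuspForm.heckeAlgebra.T hl hlM (Set.notMem_empty l) := by
    intro l hl hlM
    rw [hTl]
    simp only
    rw [dif_pos ⟨hl, hlM⟩]
  obtain ⟨ρ, hρ1, hρ2⟩ := t4g_galoisRep_of_package lam M S hlamS hMS gal hecke hcomm hcont Tl
    (fun l hl hlM hlp A hA σ hσ => by rw [hTl' l hl hlM]; exact hES l hl hlM hlp A hA σ hσ)
    hp'' lamg h2 hc
  refine ⟨ρ, fun ℓ hℓ hℓM hℓS A hA σ hσ => ?_, fun q hq hqlam hq2 => ?_⟩
  · rw [hρ1 ℓ hℓ hℓM hℓS A hA σ hσ, hTl' ℓ hℓ hℓM, RingHom.comp_apply, RingHom.comp_apply,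
      ← hι' (CuspForm.heckeAlgebra.T hℓ hℓM hℓS)]
    rfl
  · -- `M = N'' * q * q` with `q ∤ N''`
    have hM0 : M ≠ 0 := NeZero.ne M
    have hdvd : q ^ 2 ∣ M := by
      rw [← hq2]
      exact Nat.ordProj_dvd M q
    obtain ⟨N'', hN''⟩ := hdvd
    have hM : M = N'' * q * q := by rw [hN'']; ring
    have hN''0 : N'' ≠ 0 := by
      rintro rfl
      rw [mul_zero] at hN''
      exact hM0 hN''
    haveI : NeZero N'' := ⟨hN''0⟩
    haveI : NeZero (N'' * q) := ⟨mul_ne_zero hN''0 hq.ne_zero⟩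
    have hqN'' : ¬ q ∣ N'' := by
      rintro ⟨r, rfl⟩
      have h3 : q ^ 3 ∣ M := ⟨r, by rw [hN'']; ring⟩
      have h4 := (hq.pow_dvd_iff_le_factorization hM0).mp h3
      omega
    have hnew' : T2fNewAt M (N'' * q) lamg := hnew M g hg (N'' * q) q hM hq O'' ι'
    obtain ⟨A, hA⟩ :=
      Fermat.Agent.Lib.Helper6.exists_valuationSubring_liesOverPrime (AlgebraicClosure ℚ) hq
    exact hρ2 q A hA (fun v hv hfix => hN9 q hq hqlam N'' hM hqN'' O'' lamg hnew' A hA v hv hfix)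

end

end Fermat.Agent.T4
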